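import Mathlib.Analysis.SpecialFunctions.Exponential
import Mathlib.Analysis.SpecificLimits.Basic
import Mathlib.NumberTheory.Real.Irrational
import Mathlib.Tactic

/-!
# Engel and Lüroth series

Both write `x ∈ (0, 1]` as `∑ k, (∏ i < k, w (a i)) / a k` with `2 ≤ a k`: Engel's series has
`w a = 1 / a` and `a` monotone, Lüroth's: `w a = 1 / (a (a - 1))`. The tails `v n` are in `(0, 1]`
and determine `a n` as `⌊1 / v n⌋ + 1`.
-/

set_option autoImplicit false

noncomputable section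

open Finset Filter
open scoped Topology

namespace FA.EngelSeries

variable {w : ℕ → ℝ}

/-- The terms. -/
def term (w : ℕ → ℝ) (a : ℕ → ℕ) (k : ℕ) : ℝ := (∏ i ∈ range k, w (a i)) / a k

/-- The weights shrink. -/
def Good (w : ℕ → ℝ) : Prop := ∀ m : ℕ, 2 ≤ m → 0 < w m ∧ w m ≤ 1 / 2

theorem prod_weight (hw : Good w) {a : ℕ → ℕ} (ha : ∀ k, 2 ≤ a k) (k : ℕ) :
    0 < ∏ i ∈ range k, w (a i) ∧ ∏ i ∈ range k, w (a i) ≤ (1 / 2) ^ k := by
  refine ⟨prod_pos fun i _ => (hw _ (ha i)).1, ?_⟩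
  have h := prod_le_prod (s := range k) (fun i _ => (hw _ (ha i)).1.le) fun i _ => (hw _ (ha i)).2
  rwa [prod_const, card_range] at h

theorem term_bounds (hw : Good w) {a : ℕ → ℕ} (ha : ∀ k, 2 ≤ a k) (k : ℕ) :
    0 < term w a k ∧ term w a k ≤ (1 / 2) ^ (k + 1) := by
  obtain ⟨h1, h2⟩ := prod_weight hw ha k
  have hk : (2 : ℝ) ≤ a k := by exact_mod_cast ha k
  refine ⟨div_pos h1 (by linarith), ?_⟩
  rw [term, pow_succ, div_eq_mul_one_div _ (a k : ℝ)]
  exact mul_le_mul h2 (one_div_le_one_div_of_le two_pos hk) (by positivity) (by positivity)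

theorem hasSum_half : HasSum (fun k : ℕ => (1 / 2 : ℝ) ^ (k + 1)) 1 := by
  have h := (hasSum_nat_add_iff' 1).2 hasSum_geometric_two
  norm_num at h
  simpa using h

theorem summable_term (hw : Good w) {a : ℕ → ℕ} (ha : ∀ k, 2 ≤ a k) : Summable (term w a) :=
  hasSum_half.summable.of_nonneg_of_le (fun k => (term_bounds hw ha k).1.le)
    fun k => (term_bounds hw ha k).2

/-- The tails. -/
def tail (w : ℕ → ℝ) (a : ℕ → ℕ) (n : ℕ) : ℝ := ∑' k, term w (fun i => a (n + i)) k

theorem tail_mem (hw : Good w) {a : ℕ → ℕ} (ha : ∀ k, 2 ≤ a k) (n : ℕ) :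
    0 < tail w a n ∧ tail w a n ≤ 1 :=
  ⟨(summable_term hw fun i => ha (n + i)).tsum_pos
      (fun k => (term_bounds hw (fun _ => ha _) k).1.le) 0 (term_bounds hw (fun _ => ha _) 0).1,
    ((summable_term hw fun i => ha (n + i)).tsum_le_tsum
      (fun k => (term_bounds hw (fun _ => ha _) k).2) hasSum_half.summable).trans_eq
      hasSum_half.tsum_eq⟩

theorem tail_succ (hw : Good w) {a : ℕ → ℕ} (ha : ∀ k, 2 ≤ a k) (n : ℕ) :
    tail w a n = 1 / (a n : ℝ) + w (a n) * tail w a (n + 1) := by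
  rw [tail, (summable_term hw fun i => ha (n + i)).tsum_eq_zero_add, tail, ← tsum_mul_left]
  congr 1
  refine tsum_congr fun k => ?_
  rw [term, prod_range_succ', term]
  simp only [Nat.add_zero, ← Nat.add_assoc, Nat.add_right_comm n 1]
  ring

theorem tail_zero (w : ℕ → ℝ) (a : ℕ → ℕ) : tail w a 0 = ∑' k, term w a k := by
  simp only [tail, Nat.zero_add]

/-- **Existence.** -/
theorem hasSum_of_rec (hw : Good w) {a : ℕ → ℕ} (ha : ∀ k, 2 ≤ a k) {u : ℕ → ℝ}
    (hu : ∀ n, 0 ≤ u n ∧ u n ≤ 1) (hrec : ∀ n, u n = 1 / (a n : ℝ) + w (a n) * u (n + 1)) :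
    HasSum (term w a) (u 0) := by
  have e : ∀ n, u 0 = (∑ k ∈ range n, term w a k) + (∏ i ∈ range n, w (a i)) * u n := fun n => by
    induction n with
    | zero => simp
    | succ n ih => rw [ih, hrec n, sum_range_succ, prod_range_succ, term]; ring
  rw [(summable_term hw ha).hasSum_iff_tendsto_nat]
  have hlim : Tendsto (fun n => (∏ i ∈ range n, w (a i)) * u n) atTop (𝓝 0) := by
    refine squeeze_zero (fun n => mul_nonneg (prod_weight hw ha n).1.le (hu n).1) (fun n => ?_)
      (tendsto_pow_atTop_nhds_zero_of_lt_one (show (0 : ℝ) ≤ 1 / 2 by norm_num) (by norm_num))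
    exact (mul_le_of_le_one_right (prod_weight hw ha n).1.le (hu n).2).trans
      (prod_weight hw ha n).2
  have h := (tendsto_const_nhds (x := u 0) (f := atTop (α := ℕ))).sub hlim
  rw [sub_zero] at h
  exact h.congr fun n => sub_eq_of_eq_add (e n)

/-- An affine relation with rational coefficients along the tails. -/
theorem exists_affine (hw : Good w) (hwq : ∀ m, ∃ r : ℚ, (r : ℝ) = w m) {a : ℕ → ℕ}
    (ha : ∀ k, 2 ≤ a k) (n : ℕ) : ∀ L : ℕ, ∃ A B : ℚ, 0 < (B : ℝ) ∧ (B : ℝ) ≤ (1 / 2) ^ L ∧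
      tail w a n = A + B * tail w a (n + L)
  | 0 => ⟨0, 1, by simp, by simp, by simp⟩
  | L + 1 => by
    obtain ⟨A, B, h0, h1, h2⟩ := exists_affine hw hwq ha n L
    obtain ⟨r, hr⟩ := hwq (a (n + L))
    obtain ⟨hw0, hw1⟩ := hw _ (ha (n + L))
    refine ⟨A + B * (1 / (a (n + L) : ℚ)), B * r, ?_, ?_, ?_⟩
    · push_cast; rw [hr]; exact mul_pos h0 hw0
    · push_cast; rw [hr, pow_succ]; exact mul_le_mul h1 hw1 hw0.le (by positivity)
    · rw [h2, tail_succ hw ha (n + L), ← add_assoc]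
      push_cast
      rw [hr]
      ring

/-- A periodic series is rational. -/
theorem rat_of_periodic (hw : Good w) (hwq : ∀ m, ∃ r : ℚ, (r : ℝ) = w m) {a : ℕ → ℕ}
    (ha : ∀ k, 2 ≤ a k) {N L : ℕ} (hL : 0 < L) (hper : ∀ n ≥ N, a (n + L) = a n) :
    ∃ r : ℚ, (r : ℝ) = ∑' k, term w a k := by
  obtain ⟨A, B, -, h1, h2⟩ := exists_affine hw hwq ha N L
  have e : tail w a (N + L) = tail w a N := tsum_congr fun k => by
    simp only [term]
    congr 1
    · refine prod_congr rfl fun i _ => ?_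
      rw [← hper (N + i) (by omega), Nat.add_right_comm]
    · rw [← hper (N + k) (by omega), Nat.add_right_comm]
  have hB : (B : ℝ) < 1 := h1.trans_lt (pow_lt_one₀ (by norm_num) (by norm_num) hL.ne')
  rw [e] at h2
  obtain ⟨C, D, -, -, h3⟩ := exists_affine hw hwq ha 0 N
  rw [Nat.zero_add, tail_zero] at h3
  refine ⟨C + D * (A / (1 - B)), ?_⟩
  rw [h3]
  push_cast
  congr 2
  rw [div_eq_iff (by linarith)]
  linarith

/-- The digit of a remainder. -/
def digit (x : ℝ) : ℕ := ⌊1 / x⌋₊ + 1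

theorem digit_spec {x : ℝ} (h0 : 0 < x) (h1 : x ≤ 1) :
    2 ≤ digit x ∧ 1 < (digit x : ℝ) * x ∧ ((digit x : ℝ) - 1) * x ≤ 1 := by
  have hf := Nat.floor_le (one_div_nonneg.2 h0.le)
  have hl := Nat.lt_floor_add_one (1 / x)
  refine ⟨Nat.succ_le_succ (Nat.le_floor (by rw [Nat.cast_one, le_div_iff₀ h0]; linarith)), ?_, ?_⟩
  · rw [digit]; push_cast; rw [div_lt_iff₀ h0] at hl; linarith
  · rw [digit]; push_cast; rw [le_div_iff₀ h0] at hf; linarith

theorem digit_eq {x : ℝ} (h0 : 0 < x) {m : ℕ} (hm : 1 ≤ m) (hl : 1 < (m : ℝ) * x)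
    (hu : ((m : ℝ) - 1) * x ≤ 1) : digit x = m := by
  obtain ⟨j, rfl⟩ := Nat.exists_eq_add_of_le' hm
  rw [digit, Nat.add_right_cancel_iff]
  refine (Nat.floor_eq_iff (one_div_nonneg.2 h0.le)).2 ⟨?_, ?_⟩
  · rw [le_div_iff₀ h0]; push_cast at hu; linarith
  · rw [div_lt_iff₀ h0]; push_cast at hl; linarith

/-! ### Engel's series -/

/-- Engel's weight. -/
def engelW (m : ℕ) : ℝ := 1 / m

theorem good_engelW : Good engelW := fun m hm => by
  have hm' : (2 : ℝ) ≤ m := by exact_mod_cast hm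
  exact ⟨by unfold engelW; positivity, one_div_le_one_div_of_le two_pos hm'⟩

theorem term_engelW (a : ℕ → ℕ) (k : ℕ) :
    term engelW a k = 1 / ∏ i ∈ range (k + 1), (a i : ℝ) := by
  simp only [term, engelW, one_div]
  rw [prod_inv_distrib, prod_range_succ, mul_inv, div_eq_mul_inv]

/-- The remainders. -/
def engelRem (x : ℝ) : ℕ → ℝ
  | 0 => x
  | n + 1 => digit (engelRem x n) * engelRem x n - 1

theorem engelRem_mem {x : ℝ} (h0 : 0 < x) (h1 : x ≤ 1) :
    ∀ n, 0 < engelRem x n ∧ engelRem x n ≤ 1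
  | 0 => ⟨h0, h1⟩
  | n + 1 => by
    obtain ⟨a, b⟩ := engelRem_mem h0 h1 n
    obtain ⟨-, c, d⟩ := digit_spec a b
    constructor <;> rw [engelRem] <;> linarith

theorem engel_exists {x : ℝ} (h0 : 0 < x) (h1 : x ≤ 1) :
    (∀ k, 2 ≤ digit (engelRem x k)) ∧ Monotone (fun k => digit (engelRem x k)) ∧
      HasSum (term engelW fun k => digit (engelRem x k)) x := by
  have hm := engelRem_mem h0 h1
  have h2 : ∀ k, 2 ≤ digit (engelRem x k) := fun k => (digit_spec (hm k).1 (hm k).2).1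
  refine ⟨h2, monotone_nat_of_le_succ fun k => ?_, hasSum_of_rec good_engelW h2
    (fun n => ⟨(hm n).1.le, (hm n).2⟩) fun n => ?_⟩
  · obtain ⟨-, -, d⟩ := digit_spec (hm k).1 (hm k).2
    refine Nat.succ_le_succ (Nat.floor_le_floor (one_div_le_one_div_of_le (hm (k + 1)).1 ?_))
    rw [engelRem]
    linarith
  · have : (0 : ℝ) < digit (engelRem x n) := Nat.cast_pos.2 (Nat.succ_pos _)
    rw [engelW, engelRem]
    field_simp
    ring

theorem engel_digit {a : ℕ → ℕ} (ha : ∀ k, 2 ≤ a k) (hmono : Monotone a) (n : ℕ) :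
    a n = digit (tail engelW a n) := by
  have h2 : (2 : ℝ) ≤ a n := by exact_mod_cast ha n
  obtain ⟨h0, -⟩ := tail_mem good_engelW ha n
  obtain ⟨h0', -⟩ := tail_mem good_engelW ha (n + 1)
  refine (digit_eq h0 (by linarith [ha n]) ?_ ?_).symm
  · rw [tail_succ good_engelW ha n, engelW]
    field_simp
    linarith
  · have hg : HasSum (fun k : ℕ => (a n : ℝ)⁻¹ * ((a n : ℝ)⁻¹) ^ k)
        ((a n : ℝ)⁻¹ * (1 - (a n : ℝ)⁻¹)⁻¹) :=
      (hasSum_geometric_of_lt_one (by positivity) (inv_lt_one_of_one_lt₀ (by linarith))).mul_left _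
    have hle : tail engelW a n ≤ (a n : ℝ)⁻¹ * (1 - (a n : ℝ)⁻¹)⁻¹ := by
      refine ((summable_term good_engelW fun i => ha (n + i)).tsum_le_tsum (fun k => ?_)
        hg.summable).trans_eq hg.tsum_eq
      rw [term_engelW, one_div, ← prod_inv_distrib, ← pow_succ']
      refine le_trans (prod_le_prod (fun i _ => by positivity) fun i _ =>
        inv_anti₀ (by linarith) (Nat.cast_le.2 (hmono (Nat.le_add_right n i)))) (le_of_eq ?_)
      simp
    rw [← mul_inv, mul_sub, mul_inv_cancel₀ (by linarith), mul_one] at hle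
    rw [mul_comm]
    exact (le_div_iff₀ (by linarith)).1 (by rwa [one_div])

theorem engel_unique {a b : ℕ → ℕ} (ha : ∀ k, 2 ≤ a k) (hb : ∀ k, 2 ≤ b k) (hma : Monotone a)
    (hmb : Monotone b) (h : ∑' k, term engelW a k = ∑' k, term engelW b k) : a = b := by
  have key : ∀ n, tail engelW a n = tail engelW b n := fun n => by
    induction n with
    | zero => rw [tail_zero, tail_zero, h]
    | succ n ih =>
      have hd : a n = b n := by rw [engel_digit ha hma, engel_digit hb hmb, ih]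
      rw [tail_succ good_engelW ha, tail_succ good_engelW hb, hd] at ih
      exact mul_left_cancel₀ (good_engelW _ (hb n)).1.ne' (add_left_cancel ih)
  funext n
  rw [engel_digit ha hma, engel_digit hb hmb, key n]

/-- **Engel's criterion.** -/
theorem engel_rat_iff {a : ℕ → ℕ} (ha : ∀ k, 2 ≤ a k) (hma : Monotone a) :
    (∃ r : ℚ, (r : ℝ) = ∑' k, term engelW a k) ↔ ∃ N, ∀ n ≥ N, a n = a N := by
  refine ⟨fun ⟨r, hr⟩ => ?_, fun ⟨N, hN⟩ => rat_of_periodic good_engelW
    (fun m => ⟨1 / m, by simp [engelW]⟩) ha one_pos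
    fun n hn => by rw [hN (n + 1) (Nat.le_succ_of_le hn), hN n hn]⟩
  rw [← tail_zero] at hr
  have hp : ∀ n, ∃ p : ℕ, (p : ℝ) = r.den * tail engelW a n := fun n => by
    induction n with
    | zero =>
      refine ⟨r.num.toNat, ?_⟩
      have h0 : (0 : ℚ) < r := by
        have := (tail_mem good_engelW ha 0).1
        rw [← hr] at this
        exact_mod_cast this
      rw [← hr, ← Int.cast_natCast, Int.toNat_of_nonneg (Rat.num_nonneg.2 h0.le)]
      exact_mod_cast (r.den_mul_eq_num).symm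
    | succ n ih =>
      obtain ⟨p, hp⟩ := ih
      have hn : (2 : ℝ) ≤ a n := by exact_mod_cast ha n
      have e : ((a n * p : ℕ) : ℝ) - r.den = r.den * tail engelW a (n + 1) := by
        push_cast
        rw [hp, tail_succ good_engelW ha n, engelW]
        field_simp
        ring
      have hle : r.den ≤ a n * p := by
        have := mul_nonneg (Nat.cast_nonneg (α := ℝ) r.den) (tail_mem good_engelW ha (n + 1)).1.le
        rw [← e] at this
        exact_mod_cast sub_nonneg.1 this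
      exact ⟨a n * p - r.den, by rw [Nat.cast_sub hle, e]⟩
  choose p hp using hp
  obtain ⟨N, hN⟩ : ∃ N, ∀ n, p N ≤ p n :=
    ⟨Function.argmin p, fun n => Function.argmin_le p n⟩
  refine ⟨N, fun n hn => le_antisymm ?_ (hma hn)⟩
  rw [engel_digit ha hma, engel_digit ha hma N]
  refine Nat.succ_le_succ (Nat.floor_le_floor (one_div_le_one_div_of_le
    (tail_mem good_engelW ha N).1 ?_))
  have hd : (0 : ℝ) < r.den := Nat.cast_pos.2 r.den_pos
  have := (Nat.cast_le (α := ℝ)).2 (hN n)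
  rw [hp, hp] at this
  exact le_of_mul_le_mul_left this hd

/-- `e - 2` has the Engel digits `2, 3, 4, …`. -/
theorem hasSum_engel_exp : HasSum (term engelW fun k => k + 2) (Real.exp 1 - 2) := by
  have h : HasSum (fun n : ℕ => (1 : ℝ) / n.factorial) (Real.exp 1) := by
    have := NormedSpace.expSeries_div_hasSum_exp (1 : ℝ)
    rw [← Real.exp_eq_exp_ℝ] at this
    simpa using this
  have h' := (hasSum_nat_add_iff' 2).2 h
  simp only [sum_range_succ, sum_range_zero, Nat.factorial_zero, Nat.factorial_one, Nat.cast_one,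
    div_one, zero_add, one_add_one_eq_two] at h'
  refine h'.congr_fun fun k => ?_
  rw [term_engelW, ← Nat.cast_prod]
  congr 2
  induction k with
  | zero => rfl
  | succ k ih =>
    rw [prod_range_succ, ih, show k + 1 + 2 = k + 2 + 1 by ring, Nat.factorial_succ (k + 2)]
    ring

/-! ### Lüroth's series -/

/-- Lüroth's weight. -/
def lurothW (m : ℕ) : ℝ := 1 / (m * (m - 1))

theorem good_lurothW : Good lurothW := fun m hm => by
  have hm' : (2 : ℝ) ≤ m := by exact_mod_cast hm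
  exact ⟨one_div_pos.2 (by nlinarith), one_div_le_one_div_of_le two_pos (by nlinarith)⟩

/-- The remainders. -/
def lurothRem (x : ℝ) : ℕ → ℝ
  | 0 => x
  | n + 1 => ((digit (lurothRem x n) : ℝ) - 1) * (digit (lurothRem x n) * lurothRem x n - 1)

theorem lurothRem_mem {x : ℝ} (h0 : 0 < x) (h1 : x ≤ 1) :
    ∀ n, 0 < lurothRem x n ∧ lurothRem x n ≤ 1
  | 0 => ⟨h0, h1⟩
  | n + 1 => by
    obtain ⟨a, b⟩ := lurothRem_mem h0 h1 n
    obtain ⟨e, c, d⟩ := digit_spec a b
    have e' : (2 : ℝ) ≤ digit (lurothRem x n) := by exact_mod_cast e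
    constructor <;> rw [lurothRem]
    · exact mul_pos (by linarith) (by linarith)
    · nlinarith

theorem luroth_exists {x : ℝ} (h0 : 0 < x) (h1 : x ≤ 1) :
    (∀ k, 2 ≤ digit (lurothRem x k)) ∧ HasSum (term lurothW fun k => digit (lurothRem x k)) x := by
  have hm := lurothRem_mem h0 h1
  have h2 : ∀ k, 2 ≤ digit (lurothRem x k) := fun k => (digit_spec (hm k).1 (hm k).2).1
  refine ⟨h2, hasSum_of_rec good_lurothW h2 (fun n => ⟨(hm n).1.le, (hm n).2⟩) fun n => ?_⟩
  have h : (2 : ℝ) ≤ digit (lurothRem x n) := by exact_mod_cast h2 n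
  have : (0 : ℝ) < (digit (lurothRem x n) : ℝ) - 1 := by linarith
  rw [lurothW, lurothRem]
  field_simp
  ring

theorem luroth_digit {a : ℕ → ℕ} (ha : ∀ k, 2 ≤ a k) (n : ℕ) :
    a n = digit (tail lurothW a n) := by
  have h2 : (2 : ℝ) ≤ a n := by exact_mod_cast ha n
  have h3 : (0 : ℝ) < (a n : ℝ) - 1 := by linarith
  obtain ⟨h0, -⟩ := tail_mem good_lurothW ha n
  obtain ⟨h0', h1'⟩ := tail_mem good_lurothW ha (n + 1)
  refine (digit_eq h0 (by linarith [ha n]) ?_ ?_).symm <;>
    rw [tail_succ good_lurothW ha n, lurothW] <;> field_simp <;> nlinarith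

theorem luroth_unique {a b : ℕ → ℕ} (ha : ∀ k, 2 ≤ a k) (hb : ∀ k, 2 ≤ b k)
    (h : ∑' k, term lurothW a k = ∑' k, term lurothW b k) : a = b := by
  have key : ∀ n, tail lurothW a n = tail lurothW b n := fun n => by
    induction n with
    | zero => rw [tail_zero, tail_zero, h]
    | succ n ih =>
      have hd : a n = b n := by rw [luroth_digit ha, luroth_digit hb, ih]
      rw [tail_succ good_lurothW ha, tail_succ good_lurothW hb, hd] at ih
      exact mul_left_cancel₀ (good_lurothW _ (hb n)).1.ne' (add_left_cancel ih)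
  funext n
  rw [luroth_digit ha, luroth_digit hb, key n]

/-- **Lüroth's criterion.** -/
theorem luroth_rat_iff {a : ℕ → ℕ} (ha : ∀ k, 2 ≤ a k) :
    (∃ r : ℚ, (r : ℝ) = ∑' k, term lurothW a k) ↔
      ∃ N L, 0 < L ∧ ∀ n ≥ N, a (n + L) = a n := by
  refine ⟨fun ⟨r, hr⟩ => ?_, fun ⟨N, L, hL, h⟩ => rat_of_periodic good_lurothW
    (fun m => ⟨1 / (m * (m - 1)), by simp [lurothW]⟩) ha hL h⟩
  rw [← tail_zero] at hr
  have hp : ∀ n, ∃ p : ℤ, (p : ℝ) = r.den * tail lurothW a n := fun n => by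
    induction n with
    | zero => exact ⟨r.num, by rw [← hr]; exact_mod_cast r.den_mul_eq_num.symm⟩
    | succ n ih =>
      obtain ⟨p, hp⟩ := ih
      have hn : (2 : ℝ) ≤ a n := by exact_mod_cast ha n
      have : (0 : ℝ) < (a n : ℝ) - 1 := by linarith
      refine ⟨a n * (a n - 1) * p - (a n - 1) * r.den, ?_⟩
      push_cast
      rw [hp, tail_succ good_lurothW ha n, lurothW]
      field_simp
      ring
  choose p hp using hp
  have hmem : ∀ n, p n ∈ Finset.Icc (0 : ℤ) r.den := fun n => by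
    obtain ⟨h0, h1⟩ := tail_mem good_lurothW ha n
    rw [Finset.mem_Icc, ← Int.cast_le (R := ℝ), ← Int.cast_le (R := ℝ), hp]
    push_cast
    exact ⟨by positivity, mul_le_of_le_one_right (Nat.cast_nonneg _) h1⟩
  obtain ⟨i, j, hij, he⟩ : ∃ i j, i < j ∧ p i = p j := by
    obtain ⟨i, -, j, -, hne, he⟩ := exists_ne_map_eq_of_card_lt_of_maps_to
      (s := range ((Finset.Icc (0 : ℤ) r.den).card + 1)) (t := Finset.Icc (0 : ℤ) r.den)
      (by simp) (f := p) (fun n _ => hmem n)
    rcases lt_or_gt_of_ne hne with h | h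
    exacts [⟨i, j, h, he⟩, ⟨j, i, h, he.symm⟩]
  have hd : (r.den : ℝ) ≠ 0 := by exact_mod_cast r.den_ne_zero
  have key : ∀ k, tail lurothW a (i + k + (j - i)) = tail lurothW a (i + k) := fun k => by
    induction k with
    | zero =>
      rw [Nat.add_zero, Nat.add_sub_cancel' hij.le]
      exact mul_left_cancel₀ hd (by rw [← hp, ← hp, he])
    | succ k ih =>
      have hdig : a (i + k + (j - i)) = a (i + k) := by
        rw [luroth_digit ha, luroth_digit ha (i + k), ih]
      rw [tail_succ good_lurothW ha, tail_succ good_lurothW ha (i + k), hdig] at ih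
      rw [show i + (k + 1) + (j - i) = i + k + (j - i) + 1 by omega, ← add_assoc]
      exact mul_left_cancel₀ (good_lurothW _ (ha _)).1.ne' (add_left_cancel ih)
  refine ⟨i, j - i, by omega, fun n hn => ?_⟩
  obtain ⟨k, rfl⟩ := Nat.exists_eq_add_of_le hn
  rw [luroth_digit ha, luroth_digit ha (i + k), key k]

end FA.EngelSeries

end
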